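import Fermat.Agent.DigitProducts.Measure
import Mathlib.Data.Nat.Dist
import Mathlib.Analysis.Complex.ExponentialBounds

/-!
# Products of consecutive digits

The events `φ i ≤ a_(i+1) a_(i+2)` are quasi-independent by exponential mixing with the cylinders,
so Chebyshev's inequality gives the divergence half of the zero-one law and the invariance of the
Gauss measure the convergence half.
-/

set_option autoImplicit false

noncomputable section

open MeasureTheory Filter Topology Set Real
open FA.PeriodicFractions FA.PointwiseErgodic FA.DoeblinLenstra FA.GaussKuzmin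
open scoped ENNReal

namespace FA.DigitProducts

theorem isProb_unitVol : IsProbabilityMeasure unitVol := ⟨by simp⟩

/-- The points whose digits of ranks `i + 1` and `i + 2` have a product at least `φ i`. -/
def event (φ : ℕ → ℝ) (i : ℕ) : Set ℝ := gaussMap^[i] ⁻¹' pairSet (φ i)

theorem measurableSet_event (φ : ℕ → ℝ) (i : ℕ) : MeasurableSet (event φ i) :=
  measurable_gaussMap.iterate i (measurableSet_pairSet _)

theorem mem_event {φ : ℕ → ℝ} {i : ℕ} {y : ℝ} (hy : y ∈ unitIrr) :
    y ∈ event φ i ↔ φ i ≤ (digit y (i + 1) : ℝ) * (digit y (i + 2) : ℝ) := by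
  rw [event, mem_preimage, pairSet, Set.mem_ofPred_eq, digit, digit, cq_succ_eq hy,
    cq_succ_eq hy, Function.iterate_succ_apply']

theorem unitVol_eq {S : Set ℝ} (hS : MeasurableSet S) : unitVol S = volume (unitIrr ∩ S) := by
  rw [unitVol_apply hS, inter_comm, inter_comm unitIrr]
  exact (volume_inter_unitIrr S).symm

/-- **Quasi-independence.** -/
theorem event_inter_le {φ : ℕ → ℝ} {i m n : ℕ} (him : i + 2 ≤ m) {A : Set ℝ}
    (hA : MeasurableSet A) :
    unitVol.real (event φ i ∩ gaussMap^[n + m] ⁻¹' A) ≤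
      gaussMeasure.real A * (1 + 36 * log 2 * (11 / 12) ^ n) * unitVol.real (event φ i) := by
  have := isProb_unitVol
  set S := gaussMap^[n + m] ⁻¹' A with hS
  have hSm : MeasurableSet S := measurable_gaussMap.iterate _ hA
  set c := gaussMeasure.real A * (1 + 36 * log 2 * (11 / 12) ^ n) with hc
  have hc0 : 0 ≤ c := by
    have := log_pos one_lt_two
    positivity
  set P : Set ℝ := unitIrr ∩ event φ i with hP
  set cyl : (Fin (m + 1) → ℤ) → Set ℝ := fun w => wordCylinder ⟨m, w⟩ with hcyl
  have hcover : P = ⋃ w, cyl w ∩ P := by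
    refine Set.Subset.antisymm (fun y hy => Set.mem_iUnion.2
      ⟨fun j => digit y j, ⟨hy.1, fun j => rfl⟩, hy⟩) (iUnion_subset fun w => inter_subset_right)
  have hdisj : Pairwise (Function.onFun Disjoint fun w => cyl w ∩ P) := fun w w' hne =>
    Set.disjoint_left.2 fun y hy hy' => hne (funext fun j => (hy.1.2 j).symm.trans (hy'.1.2 j))
  have hPm : MeasurableSet P := measurableSet_unitIrr.inter (measurableSet_event φ i)
  have hmc : ∀ w, MeasurableSet (cyl w ∩ P) := fun w => (measurableSet_wordCylinder _).inter hPm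
  have hone : ∀ w, volume ((cyl w ∩ P) ∩ S) ≤ ENNReal.ofReal c * volume (cyl w ∩ P) := fun w => by
    rcases (cyl w ∩ P).eq_empty_or_nonempty with h0 | ⟨x, hxc, hxP⟩
    · simp [h0]
    have heq : cyl w = gaussCylinder x m := by
      ext y
      refine and_congr_right fun _ => ⟨fun h j hj => ?_, fun h j => ?_⟩
      · exact (h ⟨j, Nat.lt_succ_of_le hj⟩).trans (hxc.2 ⟨j, Nat.lt_succ_of_le hj⟩).symm
      · exact (h j (Nat.lt_succ_iff.1 j.2)).trans (hxc.2 j)
    have hin : cyl w ∩ P = gaussCylinder x m := by
      rw [heq]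
      refine Set.inter_eq_left.2 fun y hy => ⟨hy.1, ?_⟩
      rw [mem_event hy.1, hy.2 (i + 1) (by omega), hy.2 (i + 2) him]
      exact (mem_event hxc.1).1 hxP.2
    rw [hin]
    have hfin : volume (gaussCylinder x m) ≠ ⊤ :=
      ne_top_of_le_ne_top (by simp [measure_congr unitIrr_ae] : volume unitIrr ≠ ⊤)
        (measure_mono fun y hy => hy.1)
    have h := (abs_le.1 (abs_cylinder_sub_le hxc.1 m hA n)).2
    rw [← ofReal_measureReal hfin, ← ofReal_measureReal
      (ne_top_of_le_ne_top hfin (measure_mono inter_subset_left)),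
      ← ENNReal.ofReal_mul hc0]
    refine ENNReal.ofReal_le_ofReal ?_
    rw [hc]
    linarith
  have key : volume (P ∩ S) ≤ ENNReal.ofReal c * volume P :=
    calc volume (P ∩ S) = ∑' w, volume ((cyl w ∩ P) ∩ S) := by
          rw [← measure_iUnion (fun w w' h => (hdisj h).mono inter_subset_left inter_subset_left)
            fun w => (hmc w).inter hSm, ← iUnion_inter, ← hcover]
      _ ≤ ∑' w, ENNReal.ofReal c * volume (cyl w ∩ P) := ENNReal.tsum_le_tsum hone
      _ = ENNReal.ofReal c * volume P := by
          rw [ENNReal.tsum_mul_left, ← measure_iUnion hdisj hmc, ← hcover]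
  rw [hP, inter_assoc, ← unitVol_eq ((measurableSet_event φ i).inter hSm),
    ← unitVol_eq (measurableSet_event φ i)] at key
  have h := ENNReal.toReal_mono (ENNReal.mul_ne_top ENNReal.ofReal_ne_top (measure_ne_top _ _)) key
  rwa [ENNReal.toReal_mul, ENNReal.toReal_ofReal hc0] at h

theorem abs_event_sub_le (φ : ℕ → ℝ) (j : ℕ) :
    |unitVol.real (event φ j) - gaussMeasure.real (pairSet (φ j))| ≤
      (11 / 12) ^ j * log 2 * gaussMeasure.real (pairSet (φ j)) := by
  rw [measureReal_def (μ := unitVol), unitVol_apply (measurableSet_event φ j), ← measureReal_def]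
  exact abs_volume_iterate_sub_le (measurableSet_pairSet _) j

/-- The covariance decays geometrically. -/
theorem cov_le (φ : ℕ → ℝ) {i j : ℕ} (hij : i ≤ j) :
    unitVol.real (event φ i ∩ event φ j) - unitVol.real (event φ i) * unitVol.real (event φ j) ≤
      31 * (11 / 12) ^ (j - i) * unitVol.real (event φ i) := by
  have := isProb_unitVol
  have h0 : 0 ≤ unitVol.real (event φ i) := measureReal_nonneg
  rcases Nat.lt_or_ge j (i + 2) with h | h
  · have hd : (11 / 12 : ℝ) ≤ (11 / 12) ^ (j - i) := by
      obtain h' | h' : j - i = 0 ∨ j - i = 1 := by omega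
      · rw [h']; norm_num
      · rw [h', pow_one]
    have h1 : unitVol.real (event φ i ∩ event φ j) ≤ unitVol.real (event φ i) :=
      measureReal_mono inter_subset_left
    nlinarith [mul_nonneg h0 (measureReal_nonneg (μ := unitVol) (s := event φ j))]
  obtain ⟨n, rfl⟩ : ∃ n, j = n + (i + 2) := ⟨j - (i + 2), by omega⟩
  have hq := event_inter_le (φ := φ) (n := n) (le_refl (i + 2))
    (measurableSet_pairSet (φ (n + (i + 2))))
  have he := (abs_le.1 (abs_event_sub_le φ (n + (i + 2)))).1
  have hγ : gaussMeasure.real (pairSet (φ (n + (i + 2)))) ≤ 1 := measureReal_le_one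
  have hγ0 : 0 ≤ gaussMeasure.real (pairSet (φ (n + (i + 2)))) := measureReal_nonneg
  have hpow : (11 / 12 : ℝ) ^ (n + (i + 2)) ≤ (11 / 12) ^ n :=
    pow_le_pow_of_le_one (by norm_num) (by norm_num) (Nat.le_add_right _ _)
  rw [show n + (i + 2) - i = n + 2 by omega, pow_add]
  have hl := log_pos one_lt_two
  have hl1 : log 2 ≤ 0.7 := by linarith [log_two_lt_d9]
  set γ := gaussMeasure.real (pairSet (φ (n + (i + 2))))
  set p := (11 / 12 : ℝ) ^ n
  have hp : 0 ≤ p := by positivity
  have h2 : unitVol.real (event φ i ∩ event φ (n + (i + 2))) ≤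
      γ * (1 + 36 * log 2 * p) * unitVol.real (event φ i) := hq
  have h4 : γ * (1 - p * log 2) ≤ unitVol.real (event φ (n + (i + 2))) := by
    nlinarith [mul_le_mul_of_nonneg_right hpow (mul_nonneg hl.le hγ0)]
  have h3 := mul_le_mul_of_nonneg_right h4 h0
  have h5 := mul_le_mul_of_nonneg_right
    (mul_le_mul hγ (mul_le_mul_of_nonneg_left hl1 hp) (by positivity) zero_le_one) h0
  nlinarith [mul_nonneg hp h0]

theorem sum_pow_dist_le (i N : ℕ) :
    ∑ j ∈ Finset.range N, (11 / 12 : ℝ) ^ Nat.dist i j ≤ 24 := by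
  have hgeo : ∀ M, ∑ k ∈ Finset.range M, (11 / 12 : ℝ) ^ k ≤ 12 := fun M => by
    rw [geom_sum_eq (by norm_num)]
    have : (0 : ℝ) ≤ (11 / 12) ^ M := by positivity
    rw [div_le_iff_of_neg (by norm_num)]
    linarith
  refine (Finset.sum_le_sum_of_subset_of_nonneg
    (Finset.range_subset_range.2 (Nat.le_add_left N (i + 1))) fun k _ _ => by positivity).trans ?_
  rw [Finset.sum_range_add, show (24 : ℝ) = 12 + 12 by norm_num]
  refine add_le_add ?_ ?_
  · rw [← Finset.sum_range_reflect]
    refine le_trans (le_of_eq (Finset.sum_congr rfl fun k hk => ?_)) (hgeo (i + 1))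
    rw [Finset.mem_range] at hk
    congr 1
    rw [Nat.dist_eq_sub_of_le_right (by omega)]
    omega
  · refine le_trans (Finset.sum_le_sum fun k _ => ?_) (hgeo N)
    refine pow_le_pow_of_le_one (by norm_num) (by norm_num) ?_
    rw [Nat.dist_eq_sub_of_le (by omega)]
    omega

/-- The number of events among the first `N`. -/
def hitCount (φ : ℕ → ℝ) (N : ℕ) (y : ℝ) : ℝ :=
  ∑ i ∈ Finset.range N, (event φ i).indicator 1 y

/-- The expected number of events among the first `N`. -/
def hitMean (φ : ℕ → ℝ) (N : ℕ) : ℝ := ∑ i ∈ Finset.range N, unitVol.real (event φ i)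

theorem variance_le (φ : ℕ → ℝ) (N : ℕ) :
    Integrable (fun y => (hitCount φ N y - hitMean φ N) ^ 2) unitVol ∧
      ∫ y, (hitCount φ N y - hitMean φ N) ^ 2 ∂unitVol ≤ 1500 * hitMean φ N := by
  have := isProb_unitVol
  set f : ℕ → ℝ → ℝ := fun i y => (event φ i).indicator 1 y - unitVol.real (event φ i) with hf
  have hI : ∀ {S : Set ℝ}, MeasurableSet S → Integrable (S.indicator (1 : ℝ → ℝ)) unitVol :=
    fun hS => (integrable_const 1).indicator hS
  have hprod : ∀ i j y, f i y * f j y = (event φ i ∩ event φ j).indicator 1 y -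
      unitVol.real (event φ j) * (event φ i).indicator 1 y -
      unitVol.real (event φ i) * (event φ j).indicator 1 y +
      unitVol.real (event φ i) * unitVol.real (event φ j) := by
    intro i j y
    simp only [hf]
    by_cases h1 : y ∈ event φ i <;> by_cases h2 : y ∈ event φ j <;> simp [h1, h2] <;> ring
  have hm := measurableSet_event φ
  have hint : ∀ i j, Integrable (fun y => f i y * f j y) unitVol := fun i j => by
    simp only [hprod]
    exact (((hI ((hm i).inter (hm j))).sub ((hI (hm i)).const_mul _)).sub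
      ((hI (hm j)).const_mul _)).add (integrable_const _)
  have hval : ∀ i j, ∫ y, f i y * f j y ∂unitVol = unitVol.real (event φ i ∩ event φ j) -
      unitVol.real (event φ i) * unitVol.real (event φ j) := fun i j => by
    simp only [hprod]
    have h1 : Integrable (fun y => (event φ i ∩ event φ j).indicator 1 y -
        unitVol.real (event φ j) * (event φ i).indicator 1 y) unitVol :=
      (hI ((hm i).inter (hm j))).sub ((hI (hm i)).const_mul _)
    have h2 : Integrable (fun y => (event φ i ∩ event φ j).indicator 1 y -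
        unitVol.real (event φ j) * (event φ i).indicator 1 y -
        unitVol.real (event φ i) * (event φ j).indicator 1 y) unitVol :=
      h1.sub ((hI (hm j)).const_mul _)
    rw [integral_add h2 (integrable_const _), integral_sub h1 ((hI (hm j)).const_mul _),
      integral_sub (hI ((hm i).inter (hm j))) ((hI (hm i)).const_mul _), integral_const_mul,
      integral_const_mul, integral_indicator_one ((hm i).inter (hm j)),
      integral_indicator_one (hm i), integral_indicator_one (hm j), integral_const, probReal_univ,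
      one_smul]
    ring
  have e : ∀ y, (hitCount φ N y - hitMean φ N) ^ 2 =
      ∑ i ∈ Finset.range N, ∑ j ∈ Finset.range N, f i y * f j y := fun y => by
    rw [← Finset.sum_mul_sum, ← sq, hf, hitCount, hitMean, Finset.sum_sub_distrib]
  simp only [e]
  refine ⟨integrable_finsetSum _ fun i _ => integrable_finsetSum _ fun j _ => hint i j, ?_⟩
  rw [integral_finsetSum _ fun i _ => integrable_finsetSum _ fun j _ => hint i j]
  set v : ℕ → ℝ := fun i => unitVol.real (event φ i) with hv
  have hv0 : ∀ i, 0 ≤ v i := fun i => measureReal_nonneg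
  have hc : ∀ i j, ∫ y, f i y * f j y ∂unitVol ≤
      31 * (11 / 12) ^ Nat.dist i j * v i + 31 * (11 / 12) ^ Nat.dist j i * v j := fun i j => by
    rw [hval]
    rcases le_total i j with h | h
    · refine (cov_le φ h).trans ?_
      rw [Nat.dist_eq_sub_of_le h]
      have := hv0 j
      exact le_add_of_nonneg_right (by positivity)
    · rw [inter_comm, mul_comm (unitVol.real _)]
      refine (cov_le φ h).trans ?_
      rw [Nat.dist_eq_sub_of_le h]
      have := hv0 i
      exact le_add_of_nonneg_left (by positivity)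
  have hone : ∑ i ∈ Finset.range N, ∑ j ∈ Finset.range N, 31 * (11 / 12) ^ Nat.dist i j * v i ≤
      744 * hitMean φ N := by
    rw [hitMean, Finset.mul_sum]
    refine Finset.sum_le_sum fun i _ => ?_
    rw [← Finset.sum_mul, ← Finset.mul_sum, show (744 : ℝ) = 31 * 24 by norm_num]
    exact mul_le_mul_of_nonneg_right
      (mul_le_mul_of_nonneg_left (sum_pow_dist_le i N) (by norm_num)) (hv0 i)
  calc ∑ i ∈ Finset.range N, ∫ y, ∑ j ∈ Finset.range N, f i y * f j y ∂unitVol
      ≤ ∑ i ∈ Finset.range N, ∑ j ∈ Finset.range N,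
          (31 * (11 / 12) ^ Nat.dist i j * v i + 31 * (11 / 12) ^ Nat.dist j i * v j) := by
        refine Finset.sum_le_sum fun i _ => ?_
        rw [integral_finsetSum _ fun j _ => hint i j]
        exact Finset.sum_le_sum fun j _ => hc i j
    _ ≤ 744 * hitMean φ N + 744 * hitMean φ N := by
        simp only [Finset.sum_add_distrib]
        refine add_le_add hone (le_of_eq_of_le Finset.sum_comm hone)
    _ ≤ 1500 * hitMean φ N := by
        have : 0 ≤ hitMean φ N := Finset.sum_nonneg fun i _ => hv0 i
        linarith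

theorem not_summable_event {φ : ℕ → ℝ} (h2 : ∀ i, 2 ≤ φ i)
    (hdiv : ¬Summable fun i => log (φ i) / φ i) :
    ¬Summable fun i => unitVol.real (event φ i) := fun hs => hdiv <| by
  have hl : 0 < 1 - log 2 := by
    have := log_lt_sub_one_of_pos (two_pos (α := ℝ)) (by norm_num)
    linarith
  refine Summable.of_nonneg_of_le (fun i => div_nonneg (log_nonneg (by linarith [h2 i]))
    (by linarith [h2 i])) (fun i => ?_) (hs.mul_left (16 / (1 - log 2)))
  have h1 := gauss_pairSet_ge (show (1 : ℝ) ≤ φ i by linarith [h2 i])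
  have h3 := (abs_le.1 (abs_event_sub_le φ i)).1
  have h4 : (11 / 12 : ℝ) ^ i * log 2 * gaussMeasure.real (pairSet (φ i)) ≤
      log 2 * gaussMeasure.real (pairSet (φ i)) :=
    mul_le_mul_of_nonneg_right (mul_le_of_le_one_left (log_pos one_lt_two).le
      (pow_le_one₀ (by norm_num) (by norm_num))) measureReal_nonneg
  have h5 : log (φ i) / φ i ≤ 16 * gaussMeasure.real (pairSet (φ i)) := by
    rw [show log (φ i) / (16 * φ i) = log (φ i) / φ i / 16 by ring] at h1
    linarith
  rw [div_mul_eq_mul_div, le_div_iff₀ hl]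
  nlinarith

/-- **Divergence.** -/
theorem ae_unitVol_infinite {φ : ℕ → ℝ} (h2 : ∀ i, 2 ≤ φ i)
    (hdiv : ¬Summable fun i => log (φ i) / φ i) :
    ∀ᵐ y ∂unitVol, {i | y ∈ event φ i}.Infinite := by
  classical
  have := isProb_unitVol
  have hm : Tendsto (hitMean φ) atTop atTop :=
    (not_summable_iff_tendsto_nat_atTop_of_nonneg fun i => measureReal_nonneg).1
      (not_summable_event h2 hdiv)
  have hnull : ∀ K : ℕ, unitVol {y | ∀ N, hitCount φ N y ≤ K} = 0 := fun K => by
    set B := {y | ∀ N, hitCount φ N y ≤ K} with hB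
    have hBm : MeasurableSet B := by
      rw [hB, Set.ofPred_forall]
      refine MeasurableSet.iInter fun N => (Finset.measurable_sum _ fun i _ =>
        measurable_one.indicator (measurableSet_event φ i)) (measurableSet_Iic (a := (K : ℝ)))
    have key : ∀ N, 0 < hitMean φ N → 2 * (K : ℝ) ≤ hitMean φ N →
        unitVol.real B ≤ 6000 / hitMean φ N := fun N hN hK => by
      have h := (integral_mono ((integrable_const _).indicator hBm) (variance_le φ N).1 fun y => by
        by_cases hy : y ∈ B
        · rw [indicator_of_mem hy]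
          have := hy N
          exact (show (hitMean φ N / 2) ^ 2 ≤ (hitCount φ N y - hitMean φ N) ^ 2 by nlinarith)
        · rw [indicator_of_notMem hy]
          exact sq_nonneg _).trans (variance_le φ N).2
      rw [integral_indicator hBm, setIntegral_const, smul_eq_mul] at h
      rw [le_div_iff₀ hN]
      nlinarith
    have hle : unitVol.real B ≤ 0 := ge_of_tendsto ((tendsto_const_nhds (x := (6000 : ℝ))).div_atTop
      hm) ((hm.eventually_gt_atTop 0).and (hm.eventually_ge_atTop _) |>.mono
        fun N hN => key N hN.1 hN.2)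
    exact (measureReal_eq_zero_iff).1 (le_antisymm hle measureReal_nonneg)
  filter_upwards [ae_all_iff.2 fun K => measure_eq_zero_iff_ae_notMem.1 (hnull K)] with y hy hfin
  refine hy hfin.toFinset.card fun N => ?_
  have e : hitCount φ N y = (((Finset.range N).filter fun i => y ∈ event φ i).card : ℝ) := by
    rw [hitCount, Finset.card_filter, Nat.cast_sum]
    refine Finset.sum_congr rfl fun i _ => ?_
    rw [indicator_apply]
    split_ifs <;> simp
  rw [e]
  exact Nat.cast_le.2 (Finset.card_le_card fun i hi =>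
    hfin.mem_toFinset.2 (Finset.mem_filter.1 hi).2)

theorem digit_product_iff {x : ℝ} (hx : Irrational x) (φ : ℕ → ℝ) (i : ℕ) :
    φ i ≤ (digit x (i + 1) : ℝ) * (digit x (i + 2) : ℝ) ↔ Int.fract x ∈ event φ i := by
  rw [event, mem_preimage, pairSet, Set.mem_ofPred_eq, digit_eq_iterate hx, digit_eq_iterate hx,
    Function.iterate_succ_apply']

/-- **Kleinbock–Wadleigh**, divergence. -/
theorem ae_infinite_products {φ : ℕ → ℝ} (h2 : ∀ i, 2 ≤ φ i)
    (hdiv : ¬Summable fun i => log (φ i) / φ i) :
    ∀ᵐ x : ℝ, Irrational x ∧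
      {i | φ i ≤ (digit x (i + 1) : ℝ) * (digit x (i + 2) : ℝ)}.Infinite := by
  filter_upwards [ae_real_of_gauss (gaussMeasure_absolutelyContinuous.ae_le
    (ae_unitVol_infinite h2 hdiv))] with x ⟨hx, h⟩
  refine ⟨hx, ?_⟩
  simpa only [digit_product_iff hx φ] using h

/-- **Kleinbock–Wadleigh**, convergence. -/
theorem ae_finite_products {φ : ℕ → ℝ} (h2 : ∀ i, 2 ≤ φ i)
    (hs : Summable fun i => log (φ i) / φ i) :
    ∀ᵐ x : ℝ, Irrational x ∧
      {i | φ i ≤ (digit x (i + 1) : ℝ) * (digit x (i + 2) : ℝ)}.Finite := by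
  have hμ : ∀ i, gaussMeasure (event φ i) ≤ ENNReal.ofReal (14 * (log (φ i) / φ i)) := fun i => by
    rw [event, (measurePreserving_gaussMap.iterate i).measure_preimage
      (measurableSet_pairSet _).nullMeasurableSet, ← ofReal_measureReal (measure_ne_top _ _)]
    exact ENNReal.ofReal_le_ofReal (gauss_pairSet_le (h2 i))
  have hsum : ∑' i, gaussMeasure (event φ i) ≠ ⊤ :=
    ne_top_of_le_ne_top (ENNReal.ofReal_tsum_of_nonneg (f := fun i => 14 * (log (φ i) / φ i))
      (fun i => mul_nonneg (by norm_num) (div_nonneg (log_nonneg (by linarith [h2 i]))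
        (by linarith [h2 i]))) (hs.mul_left 14) ▸ ENNReal.ofReal_ne_top) (ENNReal.tsum_le_tsum hμ)
  filter_upwards [ae_real_of_gauss (ae_eventually_notMem hsum)] with x ⟨hx, h⟩
  refine ⟨hx, ?_⟩
  simp only [digit_product_iff hx φ]
  obtain ⟨N, hN⟩ := eventually_atTop.1 h
  exact (Set.finite_Iio N).subset fun i hi => not_le.1 fun hc => hN i hc hi

end FA.DigitProducts
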