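import Fermat.Agent.BorelBernstein.Main
import Fermat.Agent.GaussKuzmin.Main
import Mathlib.NumberTheory.Harmonic.Bounds

/-!
# The measure of a large product of the first two digits

Branch by branch, the Gauss measure of `{y | t ≤ a_1(y) a_2(y)}` lies between `log t / (16 t)` and
`14 log t / t` for `t ≥ 2`.
-/

set_option autoImplicit false

noncomputable section

open MeasureTheory Filter Topology Set Real
open FA.PeriodicFractions FA.PointwiseErgodic FA.DoeblinLenstra FA.BorelBernstein FA.GaussKuzmin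
open scoped ENNReal

namespace FA.DigitProducts

/-- The points whose first two digits have a product of at least `t`. -/
def pairSet (t : ℝ) : Set ℝ := {y | t ≤ (⌊y⁻¹⌋ : ℝ) * (⌊(gaussMap y)⁻¹⌋ : ℝ)}

theorem measurableSet_pairSet (t : ℝ) : MeasurableSet (pairSet t) := by
  have hf : Measurable fun y : ℝ => (⌊y⁻¹⌋ : ℝ) :=
    measurable_from_top.comp (Int.measurable_floor.comp measurable_inv)
  exact (hf.mul (hf.comp measurable_gaussMap)) (measurableSet_Ici (a := t))

theorem unitVol_apply {S : Set ℝ} (hS : MeasurableSet S) : unitVol S = volume (Ioo 0 1 ∩ S) := by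
  rw [Measure.restrict_apply hS, inter_comm]

theorem unitVol_big_le (s : ℝ) : unitVol (big s) ≤ ENNReal.ofReal (1 / max s 1) := by
  rw [unitVol_apply (measurableSet_big s)]
  refine (measure_mono (t := Ioc 0 (1 / max s 1)) ?_).trans_eq (by rw [Real.volume_Ioc, sub_zero])
  rintro u ⟨hu, hs : s ≤ (⌊u⁻¹⌋ : ℝ)⟩
  refine ⟨hu.1, ?_⟩
  have h1 : max s 1 ≤ u⁻¹ :=
    max_le (hs.trans (Int.floor_le _)) ((one_lt_inv₀ hu.1).2 hu.2).le
  rwa [one_div, le_inv_comm₀ hu.1 (lt_of_lt_of_le one_pos (le_max_right _ _))]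

theorem le_unitVol_big (s : ℝ) : ENNReal.ofReal (1 / (2 * max s 1)) ≤ unitVol (big s) := by
  have h1 : (1 : ℝ) ≤ max s 1 := le_max_right _ _
  rw [unitVol_apply (measurableSet_big s)]
  refine (le_of_eq (by rw [Real.volume_Ioo, sub_zero])).trans
    (measure_mono (s := Ioo 0 (1 / (2 * max s 1))) ?_)
  rintro u ⟨hu0, hu1⟩
  refine ⟨⟨hu0, hu1.trans_le ((div_le_one (by linarith)).2 (by linarith))⟩, ?_⟩
  change s ≤ (⌊u⁻¹⌋ : ℝ)
  rw [one_div, lt_inv_comm₀ hu0 (by linarith)] at hu1
  linarith [Int.lt_floor_add_one u⁻¹, le_max_left s 1]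

theorem unitVol_pairSet (t : ℝ) : unitVol (pairSet t) = ∑' k : ℕ,
    ∫⁻ u in big (t / ((k : ℝ) + 1)), ENNReal.ofReal (1 / ((k : ℝ) + 1 + u) ^ 2) ∂unitVol := by
  rw [← lintegral_indicator_one (measurableSet_pairSet t), lintegral_branches]
  refine tsum_congr fun k => ?_
  rw [← lintegral_indicator (measurableSet_big _)]
  refine setLIntegral_congr_fun measurableSet_Ioo fun u hu => ?_
  obtain ⟨-, h1, h2⟩ := branch_facts k hu
  have hiff : 1 / ((k : ℝ) + 1 + u) ∈ pairSet t ↔ u ∈ big (t / ((k : ℝ) + 1)) := by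
    simp only [pairSet, big, Set.mem_ofPred_eq, h1, h2]
    push_cast
    rw [div_le_iff₀ (by positivity), mul_comm]
  by_cases hu' : u ∈ big (t / ((k : ℝ) + 1))
  · rw [indicator_of_mem hu', indicator_of_mem (hiff.2 hu'), Pi.one_apply, mul_one]
  · rw [indicator_of_notMem hu', indicator_of_notMem (fun h => hu' (hiff.1 h)), mul_zero]

theorem unitVol_pairSet_ge {t : ℝ} (ht : 1 ≤ t) :
    ENNReal.ofReal (log t / (8 * t)) ≤ unitVol (pairSet t) := by
  have hterm : ∀ k : ℕ, k < ⌊t⌋₊ → ENNReal.ofReal (1 / (8 * t) * ((k : ℝ) + 1)⁻¹) ≤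
      ∫⁻ u in big (t / ((k : ℝ) + 1)), ENNReal.ofReal (1 / ((k : ℝ) + 1 + u) ^ 2) ∂unitVol := by
    intro k hk
    have hk0 := Nat.cast_nonneg (α := ℝ) k
    have hk' : (k : ℝ) + 1 ≤ t := by
      calc (k : ℝ) + 1 ≤ (⌊t⌋₊ : ℝ) := by exact_mod_cast hk
        _ ≤ t := Nat.floor_le (by linarith)
    have hs : max (t / ((k : ℝ) + 1)) 1 = t / ((k : ℝ) + 1) :=
      max_eq_left ((one_le_div (by positivity)).2 hk')
    calc ENNReal.ofReal (1 / (8 * t) * ((k : ℝ) + 1)⁻¹)
        ≤ ENNReal.ofReal (1 / ((k : ℝ) + 2) ^ 2) *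
            ENNReal.ofReal (1 / (2 * max (t / ((k : ℝ) + 1)) 1)) := by
          rw [← ENNReal.ofReal_mul (by positivity), hs, inv_eq_one_div, one_div_mul_one_div,
            one_div_mul_one_div]
          refine ENNReal.ofReal_le_ofReal (one_div_le_one_div_of_le (by positivity) ?_)
          rw [← mul_div_assoc, ← mul_div_assoc, div_le_iff₀ (by positivity)]
          nlinarith [mul_nonneg (mul_nonneg (zero_le_one.trans ht) hk0)
            (by linarith : 0 ≤ 3 * (k : ℝ) + 4)]
      _ ≤ ENNReal.ofReal (1 / ((k : ℝ) + 2) ^ 2) * unitVol (big (t / ((k : ℝ) + 1))) :=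
          mul_le_mul_right (le_unitVol_big _) _
      _ ≤ _ := by
          rw [← setLIntegral_const]
          refine lintegral_mono_ae ?_
          filter_upwards [ae_restrict_of_ae (ae_restrict_mem measurableSet_Ioo)] with u hu
          refine ENNReal.ofReal_le_ofReal (one_div_le_one_div_of_le ?_ ?_)
          · have := hu.1
            positivity
          · exact pow_le_pow_left₀ (by linarith [hu.1]) (by linarith [hu.2]) 2
  rw [unitVol_pairSet]
  refine le_trans ?_ ((Finset.sum_le_sum fun k hk => hterm k (Finset.mem_range.1 hk)).trans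
    (ENNReal.sum_le_tsum (Finset.range ⌊t⌋₊)))
  rw [← ENNReal.ofReal_sum_of_nonneg fun k _ => by positivity, ← Finset.mul_sum]
  refine ENNReal.ofReal_le_ofReal ?_
  have h : log t ≤ ∑ k ∈ Finset.range ⌊t⌋₊, ((k : ℝ) + 1)⁻¹ := by
    refine (log_le_log (by linarith) (Nat.lt_floor_add_one t).le).trans ?_
    have := log_add_one_le_harmonic ⌊t⌋₊
    rw [harmonic] at this
    push_cast at this
    exact this
  rw [div_eq_inv_mul, one_div]
  exact mul_le_mul_of_nonneg_left h (by positivity)

theorem unitVol_pairSet_le {t : ℝ} (ht : 1 ≤ t) :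
    unitVol (pairSet t) ≤ ENNReal.ofReal ((3 + log t) / t) := by
  set f : ℕ → ℝ := fun k => 1 / ((k : ℝ) + 1) ^ 2 * (1 / max (t / ((k : ℝ) + 1)) 1) with hf
  have hf0 : ∀ k, 0 ≤ f k := fun k => by
    have : (0 : ℝ) < max (t / ((k : ℝ) + 1)) 1 := lt_max_of_lt_right one_pos
    simp only [hf]
    positivity
  have hn : 1 ≤ ⌊t⌋₊ := Nat.le_floor (by simpa using ht)
  have hsum : ∀ N, ∑ k ∈ Finset.range N, f k ≤ (3 + log t) / t := fun N => by
    refine (Finset.sum_le_sum_of_subset_of_nonneg
      (Finset.range_subset_range.2 (Nat.le_add_left N ⌊t⌋₊)) fun k _ _ => hf0 k).trans ?_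
    rw [Finset.sum_range_add, show (3 + log t) / t = (1 + log t) / t + 2 / t by ring]
    refine add_le_add ?_ ?_
    · have h : ∑ k ∈ Finset.range ⌊t⌋₊, ((k : ℝ) + 1)⁻¹ ≤ 1 + log t := by
        have := harmonic_le_one_add_log ⌊t⌋₊
        rw [harmonic] at this
        push_cast at this
        refine this.trans (add_le_add le_rfl (log_le_log ?_ (Nat.floor_le (by linarith))))
        exact_mod_cast hn
      rw [div_eq_inv_mul _ t]
      refine le_trans ?_ (mul_le_mul_of_nonneg_left h (by positivity))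
      rw [Finset.mul_sum]
      refine Finset.sum_le_sum fun k _ => ?_
      have hk : (0 : ℝ) < (k : ℝ) + 1 := by positivity
      refine (mul_le_mul_of_nonneg_left (one_div_le_one_div_of_le (by positivity)
        (le_max_left _ _)) (by positivity)).trans_eq ?_
      field_simp
    · have htel : ∀ M, ∑ i ∈ Finset.range M, f (⌊t⌋₊ + i) ≤
          1 / (⌊t⌋₊ : ℝ) - 1 / ((⌊t⌋₊ : ℝ) + M) := fun M => by
        induction M with
        | zero => simp
        | succ M ih =>
          rw [Finset.sum_range_succ]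
          have hnr : (1 : ℝ) ≤ ⌊t⌋₊ := by exact_mod_cast hn
          have h2 : f (⌊t⌋₊ + M) ≤ 1 / ((⌊t⌋₊ : ℝ) + M) - 1 / ((⌊t⌋₊ : ℝ) + (M + 1)) := by
            simp only [hf]
            push_cast
            refine (mul_le_of_le_one_right (by positivity) ?_).trans ?_
            · rw [div_le_one (lt_max_of_lt_right one_pos)]
              exact le_max_right _ _
            · rw [div_sub_div _ _ (by positivity) (by positivity),
                div_le_div_iff₀ (by positivity) (by positivity)]
              nlinarith [Nat.cast_nonneg (α := ℝ) M]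
          push_cast
          linarith
      refine ((htel N).trans (sub_le_self _ (by positivity))).trans ?_
      rw [div_le_div_iff₀ (by exact_mod_cast hn) (by linarith)]
      have hnr : (1 : ℝ) ≤ ⌊t⌋₊ := by exact_mod_cast hn
      linarith [Nat.lt_floor_add_one t]
  rw [unitVol_pairSet]
  refine ENNReal.tsum_le_of_sum_range_le fun N => ?_
  refine (Finset.sum_le_sum fun k _ => (?_ : _ ≤ ENNReal.ofReal (f k))).trans ?_
  · refine le_trans (lintegral_mono_ae (g := fun _ => ENNReal.ofReal (1 / ((k : ℝ) + 1) ^ 2)) ?_) ?_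
    · filter_upwards [ae_restrict_of_ae (ae_restrict_mem measurableSet_Ioo)] with u hu
      refine ENNReal.ofReal_le_ofReal (one_div_le_one_div_of_le (by positivity) ?_)
      exact pow_le_pow_left₀ (by positivity) (by linarith [hu.1]) 2
    · rw [setLIntegral_const, hf, ENNReal.ofReal_mul (by positivity)]
      exact mul_le_mul_right (unitVol_big_le _) _
  · rw [← ENNReal.ofReal_sum_of_nonneg fun k _ => hf0 k]
    exact ENNReal.ofReal_le_ofReal (hsum N)

theorem gauss_vol_bounds {A : Set ℝ} (hA : MeasurableSet A) :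
    log 2 * gaussMeasure.real A ≤ unitVol.real A ∧
      unitVol.real A ≤ 2 * log 2 * gaussMeasure.real A := by
  have hl := log_pos one_lt_two
  have e : unitVol.real A = ∫ x in A, log 2 * (1 + clamp x) ∂gaussMeasure := by
    rw [setIntegral_lebesgue hA, measureReal_def, measureReal_def, unitVol_apply hA]
  rw [e]
  constructor
  · refine le_trans (le_of_eq ?_) (setIntegral_mono (f := fun _ => log 2)
      (integrable_const _).integrableOn (integrable_of_isLip isLip_lebesgue).integrableOn fun x =>
        le_mul_of_one_le_right hl.le (by linarith [(clamp_mem x).1]))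
    rw [setIntegral_const, smul_eq_mul, mul_comm]
  · refine (setIntegral_mono (g := fun _ => 2 * log 2)
      (integrable_of_isLip isLip_lebesgue).integrableOn (integrable_const _).integrableOn
      fun x => by
        nlinarith [(clamp_mem x).2]).trans_eq ?_
    rw [setIntegral_const, smul_eq_mul, mul_comm]

/-- **The lower bound.** -/
theorem gauss_pairSet_ge {t : ℝ} (ht : 1 ≤ t) :
    log t / (16 * t) ≤ gaussMeasure.real (pairSet t) := by
  have h := ENNReal.toReal_mono (measure_ne_top _ _) (unitVol_pairSet_ge ht)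
  rw [ENNReal.toReal_ofReal (div_nonneg (log_nonneg ht) (by linarith)), ← measureReal_def] at h
  have h2 := (gauss_vol_bounds (measurableSet_pairSet t)).2
  have h3 : 2 * log 2 * gaussMeasure.real (pairSet t) ≤ 2 * gaussMeasure.real (pairSet t) :=
    mul_le_mul_of_nonneg_right (by linarith [log_le_sub_one_of_pos (two_pos (α := ℝ))])
      measureReal_nonneg
  rw [show log t / (16 * t) = log t / (8 * t) / 2 by ring]
  linarith

/-- **The upper bound.** -/
theorem gauss_pairSet_le {t : ℝ} (ht : 2 ≤ t) :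
    gaussMeasure.real (pairSet t) ≤ 14 * (log t / t) := by
  have ht1 : 1 ≤ t := by linarith
  have h := ENNReal.toReal_mono ENNReal.ofReal_ne_top (unitVol_pairSet_le ht1)
  rw [ENNReal.toReal_ofReal (div_nonneg (by linarith [log_nonneg ht1]) (by linarith)),
    ← measureReal_def] at h
  have h2 := (gauss_vol_bounds (measurableSet_pairSet t)).1
  have hl : (1 / 2 : ℝ) ≤ log 2 := by
    have := one_sub_inv_le_log_of_pos (two_pos (α := ℝ))
    norm_num at this ⊢
    exact this
  have hlt : log 2 ≤ log t := log_le_log two_pos ht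
  have h4 : (3 + log t) / t ≤ 7 * (log t / t) := by
    rw [← mul_div_assoc]
    exact div_le_div_of_nonneg_right (by linarith) (by linarith)
  nlinarith [mul_le_mul_of_nonneg_right hl
      (measureReal_nonneg (μ := gaussMeasure) (s := pairSet t)),
    div_nonneg (log_nonneg ht1) (by linarith : 0 ≤ t)]

end FA.DigitProducts
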